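/-
S16, reduction R0 (pure algebra).

`φ : HeckeAlg → T` (evaluation on the integral Hecke algebra) and `ε : HeckeAlg → ℤ`
(the Eisenstein system) are both surjective, hence `T ⧸ φ(ker ε) ≃ ℤ ⧸ ε(ker φ)`.
So the cardinality in S16 is the non-negative generator of `ε(ker φ)`.
-/
import Mathlib
import Fermat.Statements.S16
import Fermat.Agent.S23

set_option autoImplicit false

open ModularCurve CuspForm

namespace Fermat.Agent.S16.R0

/-- For surjective ring homs `φ : A → T`, `ε : A → ℤ`, the quotients `T ⧸ φ(ker ε)` and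
`ℤ ⧸ ε(ker φ)` have the same cardinality (they are both `A ⧸ (ker φ + ker ε)`). -/
theorem card_quot_map_ker {A T : Type*} [CommRing A] [CommRing T] (φ : A →+* T) (ε : A →+* ℤ)
    (hφ : Function.Surjective φ) (hε : Function.Surjective ε) :
    Nat.card (T ⧸ Ideal.map φ (RingHom.ker ε)) = Nat.card (ℤ ⧸ Ideal.map ε (RingHom.ker φ)) := by
  set J : Ideal ℤ := Ideal.map ε (RingHom.ker φ) with hJ
  let g : A →+* ℤ ⧸ J := (Ideal.Quotient.mk J).comp ε
  have hg : RingHom.ker φ ≤ RingHom.ker g := by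
    intro a ha
    rw [RingHom.mem_ker, RingHom.comp_apply, Ideal.Quotient.eq_zero_iff_mem]
    exact Ideal.mem_map_of_mem _ ha
  let ψ : T →+* ℤ ⧸ J := RingHom.liftOfSurjective φ hφ ⟨g, hg⟩
  have hψ : ∀ a, ψ (φ a) = g a := fun a => RingHom.liftOfSurjective_comp_apply φ hφ ⟨g, hg⟩ a
  have hψs : Function.Surjective ψ := by
    intro y
    obtain ⟨z, rfl⟩ := Ideal.Quotient.mk_surjective y
    obtain ⟨a, rfl⟩ := hε z
    exact ⟨φ a, hψ a⟩
  have hker : RingHom.ker ψ = Ideal.map φ (RingHom.ker ε) := by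
    apply le_antisymm
    · intro t ht
      obtain ⟨a, rfl⟩ := hφ t
      rw [RingHom.mem_ker, hψ, RingHom.comp_apply, Ideal.Quotient.eq_zero_iff_mem, hJ,
        Ideal.mem_map_iff_of_surjective ε hε] at ht
      obtain ⟨b, hb, hba⟩ := ht
      have h1 : a - b ∈ RingHom.ker ε := by
        rw [RingHom.mem_ker, map_sub, hba, sub_self]
      have h2 : φ a = φ (a - b) := by
        rw [map_sub, (RingHom.mem_ker).mp hb, sub_zero]
      rw [h2]
      exact Ideal.mem_map_of_mem _ h1
    · rw [Ideal.map_le_iff_le_comap]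
      intro a ha
      rw [Ideal.mem_comap, RingHom.mem_ker, hψ, RingHom.comp_apply, (RingHom.mem_ker).mp ha,
        map_zero]
  exact Nat.card_congr
    ((Ideal.quotEquivOfEq hker.symm).trans (RingHom.quotientKerEquivOfSurjective hψs)).toEquiv

theorem card_int_quot_span (m : ℕ) : Nat.card (ℤ ⧸ Ideal.span {(m : ℤ)}) = m := by
  rw [Nat.card_congr (Int.quotientSpanEquivZMod (m : ℤ)).toEquiv, Int.natAbs_natCast, Nat.card_zmod]

variable (p : ℕ)

/-- The Eisenstein evaluation `HeckeAlg → ℤ`. -/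
noncomputable def eisEval : HeckeAlg →+* ℤ :=
  (MvPolynomial.aeval (R := ℤ) (eisensteinSystem p)).toRingHom

theorem eisEval_apply (Q : HeckeAlg) : eisEval p Q = MvPolynomial.aeval (eisensteinSystem p) Q := rfl

theorem eisEval_surjective : Function.Surjective (eisEval p) := fun a =>
  ⟨MvPolynomial.C a, by rw [eisEval_apply, MvPolynomial.aeval_C]; rfl⟩

theorem ker_eisEval : RingHom.ker (eisEval p) = eisensteinIdeal p := rfl

/-- The evaluation of the abstract Hecke algebra on the weight-2 cusp forms is onto the Hecke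
algebra. -/
theorem heckeEvalForms_surjective (N : ℕ) [NeZero N] (k : ℤ) :
    Function.Surjective (heckeEvalForms N k) := by
  rintro ⟨t, ht⟩
  have key : ∀ t (ht : t ∈ heckeAlgebra N k ∅), ∃ Q, heckeEvalForms N k Q = ⟨t, ht⟩ := by
    intro t ht
    refine Algebra.adjoin_induction (p := fun t ht => ∃ Q, heckeEvalForms N k Q = ⟨t, ht⟩)
      ?_ ?_ ?_ ?_ ht
    · rintro x (⟨ℓ, hℓ, hℓN, -, rfl⟩ | ⟨q, hqN, hq, -, rfl⟩)
      · exact ⟨heckeGen ⟨ℓ, hℓ⟩, by
          rw [heckeEvalForms_heckeGen_of_not_dvd (show ¬ ((⟨ℓ, hℓ⟩ : Nat.Primes) : ℕ) ∣ N from hℓN)]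
          rfl⟩
      · exact ⟨heckeGen ⟨q, hq⟩, by
          rw [heckeEvalForms_heckeGen_of_dvd (show ((⟨q, hq⟩ : Nat.Primes) : ℕ) ∣ N from hqN)]
          rfl⟩
    · intro r
      exact ⟨MvPolynomial.C r, by rw [heckeEvalForms_C]; rfl⟩
    · rintro x y hx hy ⟨Q, hQ⟩ ⟨Q', hQ'⟩
      exact ⟨Q + Q', by rw [map_add, hQ, hQ']; rfl⟩
    · rintro x y hx hy ⟨Q, hQ⟩ ⟨Q', hQ'⟩
      exact ⟨Q * Q', by rw [map_mul, hQ, hQ']; rfl⟩
  exact key t ht

variable [Fact p.Prime]

/-- The composite `HeckeAlg → heckeAlgebra → heckeLatticeAlgebra` of the statement. -/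
noncomputable def evalLattice : HeckeAlg →+* ↥(heckeLatticeAlgebra p ∅) :=
  (latticeRestrictHom p ∅).toRingHom.comp (heckeEvalForms p 2)

theorem evalLattice_surjective : Function.Surjective (evalLattice p) :=
  (latticeRestrictHom_surjective p ∅).comp (heckeEvalForms_surjective p 2)

theorem evalLattice_eq_zero_iff (Q : HeckeAlg) :
    evalLattice p Q = 0 ↔ heckeEvalForms p 2 Q = 0 := by
  have hinj := (latticeRestrictHom_bijective p ∅ (Fermat.Agent.S23.result p)).1
  constructor
  · intro h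
    apply hinj
    rw [map_zero]
    exact h
  · intro h
    change (latticeRestrictHom p ∅) (heckeEvalForms p 2 Q) = 0
    rw [h, map_zero]

/-- **R0, algebraic part.** If `m` divides the Eisenstein value of every relation among the
Hecke operators, and `m` is itself such a value, then the quotient in S16 has `m` elements. -/
theorem natCard_eq_of (m : ℕ)
    (h1 : ∀ Q : HeckeAlg, heckeEvalForms p 2 Q = 0 →
      (m : ℤ) ∣ MvPolynomial.aeval (eisensteinSystem p) Q)
    (h2 : ∃ Q : HeckeAlg, heckeEvalForms p 2 Q = 0 ∧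
      MvPolynomial.aeval (eisensteinSystem p) Q = (m : ℤ)) :
    Nat.card (↥(heckeLatticeAlgebra p ∅) ⧸
        Ideal.map ((latticeRestrictHom p ∅).toRingHom.comp (heckeEvalForms p 2))
          (eisensteinIdeal p)) = m := by
  have h := card_quot_map_ker (evalLattice p) (eisEval p) (evalLattice_surjective p)
    (eisEval_surjective p)
  rw [ker_eisEval] at h
  have hJ : Ideal.map (eisEval p) (RingHom.ker (evalLattice p)) = Ideal.span {(m : ℤ)} := by
    apply le_antisymm
    · rw [Ideal.map_le_iff_le_comap]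
      intro Q hQ
      rw [Ideal.mem_comap, Ideal.mem_span_singleton]
      exact h1 Q ((evalLattice_eq_zero_iff p Q).mp ((RingHom.mem_ker).mp hQ))
    · rw [Ideal.span_singleton_le_iff_mem]
      obtain ⟨Q, hQ, hQm⟩ := h2
      rw [← hQm]
      exact Ideal.mem_map_of_mem _ ((RingHom.mem_ker).mpr ((evalLattice_eq_zero_iff p Q).mpr hQ))
  rw [hJ, card_int_quot_span] at h
  exact h

end Fermat.Agent.S16.R0
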