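/-
S16, reduction R0 (duality between the integral Hecke algebra and the lattice of integral cusp
forms).

* `exists_coeffPoly`: for every `n ≥ 1` a polynomial `P_n` in the Hecke operators with
  `a_1(P_n f) = a_n(f)` and prescribed Eisenstein value (for any sequence `s` satisfying the
  Hecke recursions of `σ'`).
* `exists_repr`: abstract perfectness of `(t, f) ↦ a_1(t f)`.
* `exists_cuspForm_congr`: if `m` divides the Eisenstein value of every relation among the Hecke
  operators, there is an integral cusp form `f` with `a_n(f) ≡ s n (mod m)` for all `n ≥ 1`.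
-/
import Mathlib
import Fermat.Agent.S16.R0.Alg
import Fermat.Agent.S49.Forms

set_option autoImplicit false

open ModularCurve CuspForm CongruenceSubgroup ModularFormClass

namespace Fermat.Agent.S16.R0

section Abstract

/-- An injective linear map of finite `ℤ`-modules whose source has at least the rank of the
target is surjective up to torsion. -/
theorem exists_smul_mem_range {M N : Type*} [AddCommGroup M] [AddCommGroup N]
    [Module.Finite ℤ M] [Module.Finite ℤ N] (β : M →ₗ[ℤ] N) (hβ : Function.Injective β)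
    (hrank : Module.finrank ℤ N ≤ Module.finrank ℤ M) (y : N) :
    ∃ d : ℤ, d ≠ 0 ∧ d • y ∈ LinearMap.range β := by
  have h1 := (LinearMap.range β).finrank_quotient_add_finrank
  have h2 := LinearMap.finrank_range_of_inj hβ
  have h3 : Module.finrank ℤ (N ⧸ LinearMap.range β) = 0 := by omega
  have h4 := (Module.finrank_eq_zero_iff_isTorsion).mp h3
  obtain ⟨d, hd⟩ := @h4 (Submodule.Quotient.mk y)
  refine ⟨d, nonZeroDivisors.coe_ne_zero d, ?_⟩
  rw [← Submodule.Quotient.mk_eq_zero, Submodule.Quotient.mk_smul]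
  exact hd

/-- Abstract perfectness: `L` a finite free `ℤ`-module, `T` a commutative finite free algebra
of endomorphisms, `a : L → ℤ` a functional which separates (`hsep`) and is saturated (`hsat`).
Then every functional on `T` is `t ↦ a (t f)`. -/
theorem exists_repr {L : Type*} [AddCommGroup L] [Module.Finite ℤ L] [Module.Free ℤ L]
    (T : Subalgebra ℤ (Module.End ℤ L)) [Module.Finite ℤ T] [Module.Free ℤ T]
    (hcomm : ∀ s t : Module.End ℤ L, s ∈ T → t ∈ T → s * t = t * s)
    (a : L →ₗ[ℤ] ℤ)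
    (hsep : ∀ f : L, (∀ t ∈ T, a (t f) = 0) → f = 0)
    (hsat : ∀ (f : L) (d : ℤ), d ≠ 0 → (∀ t ∈ T, d ∣ a (t f)) → ∃ g : L, d • g = f)
    (ψ : T →ₗ[ℤ] ℤ) : ∃ f : L, ∀ t : T, a (t.1 f) = ψ t := by
  let β : L →ₗ[ℤ] (T →ₗ[ℤ] ℤ) :=
    { toFun := fun f =>
        { toFun := fun t => a (t.1 f)
          map_add' := fun t t' => by simp
          map_smul' := fun c t => by simp }
      map_add' := fun f g => by ext t; simp
      map_smul' := fun c f => by ext t; simp }
  let γ : T →ₗ[ℤ] (L →ₗ[ℤ] ℤ) :=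
    { toFun := fun t => a.comp t.1
      map_add' := fun t t' => by ext f; simp
      map_smul' := fun c t => by ext f; simp }
  have hβ : Function.Injective β := by
    rw [injective_iff_map_eq_zero]
    intro f hf
    refine hsep f fun t ht => ?_
    exact LinearMap.congr_fun hf ⟨t, ht⟩
  have hγ : Function.Injective γ := by
    rw [injective_iff_map_eq_zero]
    intro t ht
    apply Subtype.ext
    apply LinearMap.ext
    intro f
    refine hsep _ fun t' ht' => ?_
    have h1 : t' (t.1 f) = t.1 (t' f) := by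
      have := hcomm t' t.1 ht' t.2
      exact LinearMap.congr_fun this f
    rw [h1]
    exact LinearMap.congr_fun ht (t' f)
  have hr1 : Module.finrank ℤ T ≤ Module.finrank ℤ L := by
    have := LinearMap.finrank_le_finrank_of_injective hγ
    rwa [Module.finrank_linearMap_self] at this
  have hr2 : Module.finrank ℤ (T →ₗ[ℤ] ℤ) ≤ Module.finrank ℤ L := by
    rwa [Module.finrank_linearMap_self]
  obtain ⟨d, hd, f0, hf0⟩ := exists_smul_mem_range β hβ hr2 ψ
  have hf0' : ∀ t : T, a (t.1 f0) = d * ψ t := fun t => by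
    have h := LinearMap.congr_fun hf0 t
    rw [LinearMap.smul_apply, smul_eq_mul] at h
    exact h
  obtain ⟨g, hg⟩ := hsat f0 d hd fun t ht => ⟨ψ ⟨t, ht⟩, hf0' ⟨t, ht⟩⟩
  refine ⟨g, fun t => ?_⟩
  have h2 : d * a (t.1 g) = d * ψ t := by
    rw [← hf0' t, ← hg, map_smul, map_smul, smul_eq_mul]
  exact mul_left_cancel₀ hd h2

end Abstract

section Concrete

variable (p : ℕ) [Fact p.Prime]

/-- The `n`-th `q`-coefficient of an element of the integral lattice, as an integer. -/
noncomputable def intCoeff (n : ℕ) (f : ↥(intLattice p 2)) : ℤ :=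
  Classical.choose ((Fermat.Agent.S49.mem_intLattice_iff f.1).mp f.2 n)

theorem intCoeff_spec (n : ℕ) (f : ↥(intLattice p 2)) :
    qCoeff (⇑f.1) n = (intCoeff p n f : ℂ) :=
  Classical.choose_spec ((Fermat.Agent.S49.mem_intLattice_iff f.1).mp f.2 n)

/-- The `n`-th integral `q`-coefficient as a linear functional on the lattice. -/
noncomputable def intCoeffLin (n : ℕ) : ↥(intLattice p 2) →ₗ[ℤ] ℤ where
  toFun := intCoeff p n
  map_add' f g := by
    apply Int.cast_injective (α := ℂ)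
    rw [Int.cast_add, ← intCoeff_spec, ← intCoeff_spec, ← intCoeff_spec]
    exact Fermat.Agent.S49.qCoeff_add f.1 g.1 n
  map_smul' c f := by
    apply Int.cast_injective (α := ℂ)
    rw [RingHom.id_apply, smul_eq_mul, Int.cast_mul, ← intCoeff_spec, ← intCoeff_spec]
    have h : ((c • f : ↥(intLattice p 2)) : CuspForm (Gamma0 p) 2) =
        (c : ℂ) • (f : CuspForm (Gamma0 p) 2) := by
      rw [Submodule.coe_smul, Int.cast_smul_eq_zsmul]
    rw [h]
    exact Fermat.Agent.S49.qCoeff_smul _ _ n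

theorem intCoeffLin_apply (n : ℕ) (f : ↥(intLattice p 2)) :
    intCoeffLin p n f = intCoeff p n f := rfl

theorem evalLattice_apply_coe (Q : HeckeAlg) (f : ↥(intLattice p 2)) :
    (((evalLattice p Q).1 f : ↥(intLattice p 2)) : CuspForm (Gamma0 p) 2) =
      (heckeEvalForms p 2 Q : Module.End ℂ (CuspForm (Gamma0 p) 2)) f.1 := rfl

/-- For every `n ≥ 1` there is a polynomial `P_n` in the Hecke operators such that
`a_1(P_n f) = a_n(f)`; its Eisenstein value is `s n` for any sequence `s` satisfying the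
recursions of the Eisenstein coefficients. -/
theorem exists_coeffPoly (s : ℕ → ℤ) (hs1 : s 1 = 1)
    (hsp : ∀ n : ℕ, n ≠ 0 → s (n * p) = s n)
    (hsℓ : ∀ ℓ : ℕ, ℓ.Prime → ℓ ≠ p → ∀ n : ℕ, n ≠ 0 →
      s (n * ℓ) = (1 + (ℓ : ℤ)) * s n - (if ℓ ∣ n then (ℓ : ℤ) * s (n / ℓ) else 0))
    (n : ℕ) (hn : n ≠ 0) :
    ∃ P : HeckeAlg, (∀ f : CuspForm (Gamma0 p) 2,
        qCoeff (⇑((heckeEvalForms p 2 P : Module.End ℂ (CuspForm (Gamma0 p) 2)) f)) 1 =
          qCoeff (⇑f) n) ∧
      eisEval p P = s n := by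
  have hp : p.Prime := Fact.out
  induction n using Nat.strong_induction_on with
  | _ n ih =>
    rcases eq_or_ne n 1 with rfl | hn1
    · refine ⟨1, fun f => ?_, ?_⟩
      · rw [map_one]
        rfl
      · rw [map_one, hs1]
    · obtain ⟨ℓ, hℓ, hdvd⟩ : ∃ ℓ : ℕ, ℓ.Prime ∧ ℓ ∣ n :=
        ⟨n.minFac, Nat.minFac_prime hn1, Nat.minFac_dvd n⟩
      obtain ⟨m, hm⟩ : ∃ m, n = m * ℓ := ⟨n / ℓ, (Nat.div_mul_cancel hdvd).symm⟩
      have hm0 : m ≠ 0 := by
        rintro rfl
        rw [zero_mul] at hm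
        exact hn hm
      have hmn : m < n := by
        rw [hm]
        exact lt_mul_of_one_lt_right (Nat.pos_of_ne_zero hm0) hℓ.one_lt
      obtain ⟨Pm, hPm, hPm'⟩ := ih m hmn hm0
      by_cases hℓp : ℓ = p
      · have hd : ((⟨ℓ, hℓ⟩ : Nat.Primes) : ℕ) ∣ p := by
          change ℓ ∣ p
          rw [hℓp]
        refine ⟨Pm * heckeGen ⟨ℓ, hℓ⟩, fun f => ?_, ?_⟩
        · rw [map_mul, heckeEvalForms_heckeGen_of_dvd hd]
          change qCoeff (⇑((heckeEvalForms p 2 Pm : Module.End ℂ (CuspForm (Gamma0 p) 2))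
            (heckeULin 2 hd f))) 1 = _
          rw [hPm, Fermat.Agent.S49.qCoeff_heckeU hℓ hd, hm]
        · rw [map_mul, hPm', eisEval_apply p (heckeGen _), aeval_heckeGen,
            eisensteinSystem_of_dvd hd, mul_one, hm]
          have := hsp m hm0
          rw [← hℓp] at this
          exact this.symm
      · have hnd : ¬ ((⟨ℓ, hℓ⟩ : Nat.Primes) : ℕ) ∣ p := fun h =>
          hℓp ((Nat.prime_dvd_prime_iff_eq hℓ hp).mp h)
        by_cases hℓm : ℓ ∣ m
        · have hm'0 : m / ℓ ≠ 0 := by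
            obtain ⟨c, rfl⟩ := hℓm
            rw [Nat.mul_div_cancel_left c hℓ.pos]
            rintro rfl
            exact hm0 (mul_zero ℓ)
          have hm'n : m / ℓ < n := lt_of_le_of_lt (Nat.div_le_self m ℓ) hmn
          obtain ⟨P', hP', hP''⟩ := ih (m / ℓ) hm'n hm'0
          refine ⟨Pm * heckeGen ⟨ℓ, hℓ⟩ - MvPolynomial.C (ℓ : ℤ) * P', fun f => ?_, ?_⟩
          · rw [map_sub, map_mul, map_mul, heckeEvalForms_heckeGen_of_not_dvd hnd,
              heckeEvalForms_C]
            change Fermat.Agent.S49.qLin p 2 1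
              ((heckeEvalForms p 2 Pm : Module.End ℂ (CuspForm (Gamma0 p) 2)) (heckeTLin 2 hℓ hnd f)
                - (ℓ : ℤ) • (heckeEvalForms p 2 P' : Module.End ℂ (CuspForm (Gamma0 p) 2)) f) = _
            rw [map_sub, map_zsmul, Fermat.Agent.S49.qLin_apply, Fermat.Agent.S49.qLin_apply,
              hPm, hP', Fermat.Agent.S49.qCoeff_heckeT hℓ hnd, if_pos hℓm, hm, zsmul_eq_mul]
            have h21 : ((ℓ : ℂ)) ^ ((2 : ℤ) - 1) = (ℓ : ℂ) := by norm_num
            rw [h21]
            push_cast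
            ring
          · rw [map_sub, map_mul, map_mul, hPm', hP'', eisEval_apply p (heckeGen _),
              aeval_heckeGen, eisensteinSystem_of_not_dvd hnd, eisEval_apply p (MvPolynomial.C _),
              MvPolynomial.aeval_C, hm, hsℓ ℓ hℓ hℓp m hm0, if_pos hℓm]
            simp only [Algebra.algebraMap_self, RingHom.id_apply]
            push_cast
            ring
        · refine ⟨Pm * heckeGen ⟨ℓ, hℓ⟩, fun f => ?_, ?_⟩
          · rw [map_mul, heckeEvalForms_heckeGen_of_not_dvd hnd]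
            change qCoeff (⇑((heckeEvalForms p 2 Pm : Module.End ℂ (CuspForm (Gamma0 p) 2))
              (heckeTLin 2 hℓ hnd f))) 1 = _
            rw [hPm, Fermat.Agent.S49.qCoeff_heckeT hℓ hnd, if_neg hℓm, add_zero, hm]
          · rw [map_mul, hPm', eisEval_apply p (heckeGen _), aeval_heckeGen,
              eisensteinSystem_of_not_dvd hnd, hm, hsℓ ℓ hℓ hℓp m hm0, if_neg hℓm]
            push_cast
            ring

/-- **R0, duality.** Let `s` be a sequence satisfying the Hecke recursions of the Eisenstein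
coefficients.  If `m` divides the Eisenstein value of every relation among the Hecke operators on
`S₂(Γ₀(p))`, then there is a cusp form `f` (with integral `q`-expansion) such that
`a_n(f) ≡ s n (mod m)` for all `n ≥ 1`. -/
theorem exists_cuspForm_congr (s : ℕ → ℤ) (hs1 : s 1 = 1)
    (hsp : ∀ n : ℕ, n ≠ 0 → s (n * p) = s n)
    (hsℓ : ∀ ℓ : ℕ, ℓ.Prime → ℓ ≠ p → ∀ n : ℕ, n ≠ 0 →
      s (n * ℓ) = (1 + (ℓ : ℤ)) * s n - (if ℓ ∣ n then (ℓ : ℤ) * s (n / ℓ) else 0))
    (m : ℕ)
    (hker : ∀ Q : HeckeAlg, heckeEvalForms p 2 Q = 0 →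
      (m : ℤ) ∣ MvPolynomial.aeval (eisensteinSystem p) Q) :
    ∃ f : CuspForm (Gamma0 p) 2, ∀ n : ℕ, n ≠ 0 →
      ∃ z : ℤ, qCoeff (⇑f) n = (s n : ℂ) + (m : ℂ) * z := by
  classical
  have hP := exists_coeffPoly p s hs1 hsp hsℓ
  choose! P hP1 hP2 using hP
  have hPint : ∀ n, n ≠ 0 → ∀ f : ↥(intLattice p 2),
      intCoeffLin p 1 ((evalLattice p (P n)).1 f) = intCoeff p n f := by
    intro n hn f
    apply Int.cast_injective (α := ℂ)
    rw [intCoeffLin_apply, ← intCoeff_spec, ← intCoeff_spec, evalLattice_apply_coe]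
    exact hP1 n hn f.1
  haveI := intLattice.moduleFinite p
  haveI := intLattice.moduleFree p
  have hsep : ∀ f : ↥(intLattice p 2),
      (∀ t ∈ heckeLatticeAlgebra p ∅, intCoeffLin p 1 (t f) = 0) → f = 0 := by
    intro f hf
    apply Subtype.ext
    apply Fermat.Agent.S49.ext_qCoeff
    intro n
    rcases eq_or_ne n 0 with rfl | hn
    · rw [Fermat.Agent.S49.qCoeff_zero_eq, Fermat.Agent.S49.qCoeff_zero_eq]
    · rw [intCoeff_spec, ← hPint n hn f, hf _ (evalLattice p (P n)).2, ZeroMemClass.coe_zero,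
        ← Fermat.Agent.S49.qLin_apply, map_zero, Int.cast_zero]
  have hsat : ∀ (f : ↥(intLattice p 2)) (d : ℤ), d ≠ 0 →
      (∀ t ∈ heckeLatticeAlgebra p ∅, d ∣ intCoeffLin p 1 (t f)) →
      ∃ g : ↥(intLattice p 2), d • g = f := by
    intro f d hd hf
    have hdiv : ∀ n, n ≠ 0 → d ∣ intCoeff p n f := fun n hn => by
      rw [← hPint n hn f]
      exact hf _ (evalLattice p (P n)).2
    have hdC : (d : ℂ) ≠ 0 := Int.cast_ne_zero.mpr hd
    have hg0 : ((d : ℂ)⁻¹) • (f : CuspForm (Gamma0 p) 2) ∈ intLattice p 2 := by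
      rw [Fermat.Agent.S49.mem_intLattice_iff]
      intro n
      rcases eq_or_ne n 0 with rfl | hn
      · exact ⟨0, by rw [Fermat.Agent.S49.qCoeff_zero_eq, Int.cast_zero]⟩
      · obtain ⟨c, hc⟩ := hdiv n hn
        refine ⟨c, ?_⟩
        rw [Fermat.Agent.S49.qCoeff_smul, intCoeff_spec, hc, Int.cast_mul, ← mul_assoc,
          inv_mul_cancel₀ hdC, one_mul]
    refine ⟨⟨_, hg0⟩, Subtype.ext ?_⟩
    rw [Submodule.coe_smul]
    change d • ((d : ℂ)⁻¹ • (f : CuspForm (Gamma0 p) 2)) = f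
    rw [← Int.cast_smul_eq_zsmul ℂ d, smul_smul, mul_inv_cancel₀ hdC, one_smul]
  have hcomm : ∀ s t : Module.End ℤ ↥(intLattice p 2), s ∈ heckeLatticeAlgebra p ∅ →
      t ∈ heckeLatticeAlgebra p ∅ → s * t = t * s := fun s t hs ht =>
    congrArg Subtype.val (mul_comm (⟨s, hs⟩ : ↥(heckeLatticeAlgebra p ∅)) ⟨t, ht⟩)
  let g : HeckeAlg →+* ZMod m := (Int.castRingHom (ZMod m)).comp (eisEval p)
  have hg : RingHom.ker (evalLattice p) ≤ RingHom.ker g := by
    intro Q hQ
    rw [RingHom.mem_ker] at hQ ⊢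
    have h := hker Q ((evalLattice_eq_zero_iff p Q).mp hQ)
    change ((eisEval p Q : ℤ) : ZMod m) = 0
    rw [ZMod.intCast_zmod_eq_zero_iff_dvd]
    exact h
  let ψ0 : ↥(heckeLatticeAlgebra p ∅) →+* ZMod m :=
    RingHom.liftOfSurjective (evalLattice p) (evalLattice_surjective p) ⟨g, hg⟩
  have hψ0 : ∀ Q, ψ0 (evalLattice p Q) = ((eisEval p Q : ℤ) : ZMod m) := fun Q =>
    RingHom.liftOfSurjective_comp_apply _ _ ⟨g, hg⟩ Q
  obtain ⟨ψ, hψ⟩ := Module.projective_lifting_property
    (Int.castAddHom (ZMod m)).toIntLinearMap (ψ0 : ↥(heckeLatticeAlgebra p ∅) →+ ZMod m).toIntLinearMap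
    (ZMod.intCast_surjective)
  have hψ' : ∀ t, ((ψ t : ℤ) : ZMod m) = ψ0 t := fun t => LinearMap.congr_fun hψ t
  obtain ⟨f, hf⟩ := exists_repr (heckeLatticeAlgebra p ∅) hcomm (intCoeffLin p 1) hsep hsat ψ
  refine ⟨f.1, fun n hn => ?_⟩
  have h1 : intCoeff p n f = ψ (evalLattice p (P n)) := by
    rw [← hPint n hn f]
    exact hf _
  have h2 : ((ψ (evalLattice p (P n)) : ℤ) : ZMod m) = ((s n : ℤ) : ZMod m) := by
    rw [hψ', hψ0, hP2 n hn]
  rw [ZMod.intCast_eq_intCast_iff_dvd_sub] at h2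
  obtain ⟨z, hz⟩ := h2
  refine ⟨-z, ?_⟩
  rw [intCoeff_spec, h1]
  have h3 : ψ (evalLattice p (P n)) = s n + (m : ℤ) * (-z) := by
    linarith
  rw [h3]
  push_cast
  ring

end Concrete

end Fermat.Agent.S16.R0
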