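/-
S16, reduction R0: assembly.

`result_of` proves the statement of S16 from three inputs, each stated as a hypothesis:

* `hEX`  (existence half): the Eisenstein numerator divides the Eisenstein value of every
  relation among the Hecke operators on `S₂(Γ₀(p))`;
* the Eisenstein series `E ∈ M₂(Γ₀(p))` with `q`-expansion `(p-1) + 24 ∑ s(n) qⁿ`, where `s`
  satisfies the Hecke recursions;
* `hNE`  (non-existence half): if `S₂(Γ₀(p)) ≠ 0` and `G ∈ M₂(Γ₀(p))` has constant term `p - 1`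
  and all higher coefficients in `24 m ℤ`, then `m` divides the Eisenstein numerator.
-/
import Mathlib
import Fermat.Agent.S16.R0.Duality

set_option autoImplicit false

open ModularCurve CuspForm CongruenceSubgroup ModularFormClass UpperHalfPlane

namespace Fermat.Agent.S16.R0

variable (p : ℕ) [Fact p.Prime]

omit [Fact p.Prime] in
/-- `q`-coefficients of `E - c • f` for a modular form `E` and a cusp form `f`. -/
theorem qCoeff_sub_smul [NeZero p] (E : ModularForm (Gamma0 p) 2) (c : ℂ)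
    (f : CuspForm (Gamma0 p) 2) (n : ℕ) :
    (qExpansion 1 (⇑(E - c • CuspForm.toModularFormₗ f : ModularForm (Gamma0 p) 2))).coeff n =
      (qExpansion 1 E).coeff n - c * qCoeff (⇑f) n := by
  have hΓ := one_mem_strictPeriods_Gamma0 p
  have h1 : (⇑(E - c • CuspForm.toModularFormₗ f) : ℍ → ℂ) =
      ⇑E - ⇑(c • CuspForm.toModularFormₗ f) := rfl
  have h2 : (⇑(c • CuspForm.toModularFormₗ f) : ℍ → ℂ) = c • ⇑(CuspForm.toModularFormₗ f) := rfl
  have h3 : (⇑(CuspForm.toModularFormₗ f) : ℍ → ℂ) = ⇑f := rfl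
  rw [h1, ModularForm.qExpansion_sub one_pos hΓ E (c • CuspForm.toModularFormₗ f), h2,
    ModularForm.qExpansion_smul one_pos hΓ c (CuspForm.toModularFormₗ f), h3, map_sub]
  simp [qCoeff]

/-- **S16 from its three inputs.** -/
theorem result_of
    (hEX : ∀ Q : HeckeAlg, heckeEvalForms p 2 Q = 0 →
      (eisensteinNumerator p : ℤ) ∣ MvPolynomial.aeval (eisensteinSystem p) Q)
    (E : ModularForm (Gamma0 p) 2) (s : ℕ → ℤ)
    (hE0 : (qExpansion 1 E).coeff 0 = (p : ℂ) - 1)
    (hEn : ∀ n : ℕ, n ≠ 0 → (qExpansion 1 E).coeff n = 24 * (s n : ℂ))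
    (hs1 : s 1 = 1)
    (hsp : ∀ n : ℕ, n ≠ 0 → s (n * p) = s n)
    (hsℓ : ∀ ℓ : ℕ, ℓ.Prime → ℓ ≠ p → ∀ n : ℕ, n ≠ 0 →
      s (n * ℓ) = (1 + (ℓ : ℤ)) * s n - (if ℓ ∣ n then (ℓ : ℤ) * s (n / ℓ) else 0))
    (hNE : (∃ g : CuspForm (Gamma0 p) 2, g ≠ 0) →
      ∀ (m : ℕ) (G : ModularForm (Gamma0 p) 2),
        (qExpansion 1 G).coeff 0 = (p : ℂ) - 1 →
        (∀ k : ℕ, k ≠ 0 → ∃ z : ℤ, (qExpansion 1 G).coeff k = 24 * (m : ℂ) * z) →
        m ∣ eisensteinNumerator p) :
    Nat.card (↥(heckeLatticeAlgebra p ∅) ⧸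
        Ideal.map ((latticeRestrictHom p ∅).toRingHom.comp (heckeEvalForms p 2))
          (eisensteinIdeal p)) = eisensteinNumerator p := by
  -- the generator `m0` of the ideal of Eisenstein values of relations
  set J : Ideal ℤ := Ideal.map (eisEval p) (RingHom.ker (evalLattice p)) with hJ
  obtain ⟨m0, hm0⟩ : ∃ m0 : ℕ, J = Ideal.span {(m0 : ℤ)} := by
    refine ⟨(Submodule.IsPrincipal.generator J).natAbs, ?_⟩
    rw [Int.span_natAbs, Ideal.span_singleton_generator]
  have h1 : ∀ Q : HeckeAlg, heckeEvalForms p 2 Q = 0 →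
      (m0 : ℤ) ∣ MvPolynomial.aeval (eisensteinSystem p) Q := by
    intro Q hQ
    have hmem : eisEval p Q ∈ J :=
      Ideal.mem_map_of_mem _ ((RingHom.mem_ker).mpr ((evalLattice_eq_zero_iff p Q).mpr hQ))
    rw [hm0, Ideal.mem_span_singleton] at hmem
    exact hmem
  have h2 : ∃ Q : HeckeAlg, heckeEvalForms p 2 Q = 0 ∧
      MvPolynomial.aeval (eisensteinSystem p) Q = (m0 : ℤ) := by
    have hmem : (m0 : ℤ) ∈ J := by
      rw [hm0]
      exact Ideal.mem_span_singleton_self _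
    rw [hJ, Ideal.mem_map_iff_of_surjective _ (eisEval_surjective p)] at hmem
    obtain ⟨Q, hQ, hQm⟩ := hmem
    exact ⟨Q, (evalLattice_eq_zero_iff p Q).mp ((RingHom.mem_ker).mp hQ), hQm⟩
  rw [natCard_eq_of p m0 h1 h2]
  -- `n ∣ m0` from the existence half
  have hdvd1 : eisensteinNumerator p ∣ m0 := by
    obtain ⟨Q, hQ, hQm⟩ := h2
    have := hEX Q hQ
    rw [hQm] at this
    exact Int.natCast_dvd_natCast.mp this
  -- `m0 ∣ n` from the non-existence half
  have hdvd2 : m0 ∣ eisensteinNumerator p := by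
    by_cases hS : ∃ g : CuspForm (Gamma0 p) 2, g ≠ 0
    · obtain ⟨f, hf⟩ := exists_cuspForm_congr p s hs1 hsp hsℓ m0 h1
      refine hNE hS m0 (E - (24 : ℂ) • CuspForm.toModularFormₗ f) ?_ ?_
      · rw [qCoeff_sub_smul, hE0, Fermat.Agent.S49.qCoeff_zero_eq, mul_zero, sub_zero]
      · intro k hk
        obtain ⟨z, hz⟩ := hf k hk
        refine ⟨-z, ?_⟩
        rw [qCoeff_sub_smul, hEn k hk, hz]
        push_cast
        ring
    · have hzero : ∀ g : CuspForm (Gamma0 p) 2, g = 0 := fun g => by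
        by_contra hg
        exact hS ⟨g, hg⟩
      have h10 : heckeEvalForms p 2 (1 : HeckeAlg) = 0 := by
        apply Subtype.ext
        apply LinearMap.ext
        intro g
        rw [hzero g, map_zero, map_zero]
      have := h1 1 h10
      rw [map_one] at this
      have h11 : m0 ∣ 1 := Int.natCast_dvd_natCast.mp (by simpa using this)
      exact h11.trans (one_dvd _)
  exact Nat.dvd_antisymm hdvd2 hdvd1

end Fermat.Agent.S16.R0
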