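/-
S16, reduction R0: the statement of S16 with the existence half (`EX.eisensteinNumerator_dvd`)
and the Eisenstein series (`Eis.eis24`) plugged in.  The only remaining input is the
non-existence half `hNE` (= `NE.main`).
-/
import Mathlib
import Fermat.Agent.S16.R0.Main
import Fermat.Agent.S16.EX.Main
import Fermat.Agent.S16.Eis

set_option autoImplicit false

open ModularCurve CuspForm CongruenceSubgroup ModularFormClass UpperHalfPlane

namespace Fermat.Agent.S16.R0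

/-- **S16 from the non-existence half.** -/
theorem result_of_NE (p : ℕ) [Fact p.Prime]
    (hNE : (∃ g : CuspForm (Gamma0 p) 2, g ≠ 0) →
      ∀ (m : ℕ) (G : ModularForm (Gamma0 p) 2),
        (qExpansion 1 G).coeff 0 = (p : ℂ) - 1 →
        (∀ k : ℕ, k ≠ 0 → ∃ z : ℤ, (qExpansion 1 G).coeff k = 24 * (m : ℂ) * z) →
        m ∣ eisensteinNumerator p) :
    Nat.card (↥(heckeLatticeAlgebra p ∅) ⧸
        Ideal.map ((latticeRestrictHom p ∅).toRingHom.comp (heckeEvalForms p 2))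
          (eisensteinIdeal p)) = eisensteinNumerator p := by
  have hp : p.Prime := Fact.out
  refine result_of p (fun Q hQ => Fermat.Agent.S16.EX.eisensteinNumerator_dvd p Q hQ)
    (Fermat.Agent.S16.Eis.eis24 p) (fun n => (Fermat.Agent.S16.Eis.sigmaPrime p n : ℤ))
    (Fermat.Agent.S16.Eis.qExpansion_eis24_coeff_zero p) (fun n hn => ?_) ?_ (fun n hn => ?_)
    (fun ℓ hℓ hℓp n hn => ?_) hNE
  · rw [Fermat.Agent.S16.Eis.qExpansion_eis24_coeff p hn]
    norm_cast
  · rw [Fermat.Agent.S16.Eis.sigmaPrime_one hp.ne_one]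
    rfl
  · rw [Fermat.Agent.S16.Eis.sigmaPrime_mul_self hp hn]
  · have h := Fermat.Agent.S16.Eis.sigmaPrime_mul_prime hp hℓ hℓp hn
    have h' : ((Fermat.Agent.S16.Eis.sigmaPrime p (n * ℓ) : ℕ) : ℤ) +
        (if ℓ ∣ n then (ℓ : ℤ) * (Fermat.Agent.S16.Eis.sigmaPrime p (n / ℓ) : ℤ) else 0) =
        (1 + (ℓ : ℤ)) * (Fermat.Agent.S16.Eis.sigmaPrime p n : ℤ) := by
      have h2 := congrArg (Nat.cast : ℕ → ℤ) h
      rw [← show (((1 + ℓ) * Fermat.Agent.S16.Eis.sigmaPrime p n : ℕ) : ℤ) =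
        (1 + (ℓ : ℤ)) * (Fermat.Agent.S16.Eis.sigmaPrime p n : ℤ) by push_cast; ring, ← h2]
      split_ifs <;> push_cast <;> ring
    change ((Fermat.Agent.S16.Eis.sigmaPrime p (n * ℓ) : ℕ) : ℤ) =
      (1 + (ℓ : ℤ)) * (Fermat.Agent.S16.Eis.sigmaPrime p n : ℤ) -
        (if ℓ ∣ n then (ℓ : ℤ) * (Fermat.Agent.S16.Eis.sigmaPrime p (n / ℓ) : ℤ) else 0)
    linarith

end Fermat.Agent.S16.R0
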